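/-
M59 / block [MAZUR] (helper16; prefix `m59mz_eh_`), cell [GEO-3e], EVEN-LEVEL twin of
TW/Easy/HeckeRes/Weights.lean (helper11's `twfh_` weights): `2 ∣ M`, `A` over the ODD prime `q`,
`ū = m59ye_ubar A M q` = helper11's weight-4 level-2 unit (M59/TTwin), modulus `m` prime to `2`
(in use: `m = 3 ^ n`).  Substitution: `s44e_ubar ↦ m59ye_ubar`, `s44udm_udiv ↦ m59yudm_udiv … hev`,
`12 ↦ 4`, `Coprime m 6 ↦ Coprime m 2`.
-/
import Mathlib
import Fermat.Agent.S44.Res.UDivMain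
import Fermat.Agent.M59.TTwin.UDivMain
import Fermat.Agent.TW.Easy.Res.Defs

set_option autoImplicit false
set_option linter.unusedSectionVars false
set_option linter.unusedVariables false
set_option linter.style.haveILetI false
set_option synthInstance.maxHeartbeats 400000
set_option maxHeartbeats 1000000

noncomputable section

namespace Fermat.Agent.M59

open ModularCurve AlgebraicCurve IsLocalRing
open Fermat.Agent.JT3 Fermat.Agent.SS Fermat.Agent.S35 Fermat.Agent.S24 Fermat.Agent.S44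
  Fermat.Agent.TW

local notation "Qb" => AlgebraicClosure ℚ

section Defs

variable (A : ValuationSubring Qb) (M : ℕ) [NeZero M]

/-- `ord_Q ū mod m`, for EVERY place `Q` of `FF_M / kA`. -/
def m59mz_eh_ordU (q : ℕ) [NeZero q] [NeZero (M * q)] (m : ℕ)
    (Q : Place (s44e_kA A) (s44e_FF A M)) : ZMod m :=
  ((Q.ord (m59ye_ubar A M q) : ℤ) : ZMod m)

/-- **the weights, two primes**: `k_Q = (ord_Q ū mod m)⁻¹`. -/
def m59mz_eh_k (q : ℕ) [NeZero q] (hq : q.Prime) [NeZero (M * q)] (hqM : ¬ q ∣ M) (m : ℕ)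
    (i : s44e_Sg A M q hq hqM) : ZMod m :=
  (m59mz_eh_ordU A M q m i.1)⁻¹

theorem m59mz_eh_k_def (q : ℕ) [NeZero q] (hq : q.Prime) [NeZero (M * q)] (hqM : ¬ q ∣ M) (m : ℕ)
    (i : s44e_Sg A M q hq hqM) : m59mz_eh_k A M q hq hqM m i = (m59mz_eh_ordU A M q m i.1)⁻¹ := rfl

theorem m59mz_eh_ordU_def (q : ℕ) [NeZero q] [NeZero (M * q)] (m : ℕ)
    (Q : Place (s44e_kA A) (s44e_FF A M)) :
    m59mz_eh_ordU A M q m Q = ((Q.ord (m59ye_ubar A M q) : ℤ) : ZMod m) := rfl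

end Defs

/-- an integer dividing `4` is a unit modulo `m` coprime to `2`. -/
theorem m59mz_eh_isUnit_of_dvd_four {m : ℕ} (hm2 : Nat.Coprime m 2) {a : ℤ} (ha : a ∣ 4) :
    IsUnit ((a : ℤ) : ZMod m) := by
  obtain ⟨b, hb⟩ := ha
  have h4 : IsUnit ((4 : ℕ) : ZMod m) := by
    rw [ZMod.isUnit_iff_coprime]
    have h2 : Nat.Coprime 2 m := hm2.symm
    have : (4 : ℕ) = 2 * 2 := by norm_num
    rw [this]
    exact h2.mul_left h2
  have e : ((a : ℤ) : ZMod m) * ((b : ℤ) : ZMod m) = ((4 : ℕ) : ZMod m) := by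
    rw [← Int.cast_mul, ← hb]
    norm_num
  exact isUnit_of_mul_isUnit_left (e ▸ h4)

section Weights

variable (A : ValuationSubring Qb) {q : ℕ} [hq : Fact q.Prime] (hA : A.LiesOverPrime q)
  (M : ℕ) [NeZero M] [NeZero q] [NeZero (M * q)] (hqM : ¬ q ∣ M) (hq2 : q ≠ 2)
  {m : ℕ} (hm2 : Nat.Coprime m 2) (hev : 2 ∣ M)

include hA hq2 hev

/-- on `Sg`, `ord_Q ū` divides `4` (even (U-DIV), helper11's `m59yudm_udiv`). -/
theorem m59mz_eh_ord_ubar_dvd (i : s44e_Sg A M q hq.out hqM) :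
    Place.ord i.1 (m59ye_ubar A M q) ∣ 4 := by
  have hq2' : ¬ 2 ∣ q := fun h => hq2 ((Nat.prime_dvd_prime_iff_eq Nat.prime_two hq.out).1 h).symm
  exact m59ye_ord_ubar_dvd_of_udiv (m59yudm_udiv A hA M hqM hq2' hev) i

/-- off `Sg`, at the non-cuspidal places, `ord_Q ū = 0`. -/
theorem m59mz_eh_ord_ubar_off (Q : Place (s44e_kA A) (s44e_FF A M))
    (hj : jcr_j (k := s44e_kA A) M ∈ Q.toValuationSubring)
    (hQ : ¬ s44e_IsSS A M q hq.out hqM Q) : Q.ord (m59ye_ubar A M q) = 0 := by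
  have hq2' : ¬ 2 ∣ q := fun h => hq2 ((Nat.prime_dvd_prime_iff_eq Nat.prime_two hq.out).1 h).symm
  exact m59ye_ord_ubar_off (m59yudm_udiv A hA M hqM hq2' hev) Q hj hQ

include hm2

theorem m59mz_eh_ordU_isUnit (i : s44e_Sg A M q hq.out hqM) : IsUnit (m59mz_eh_ordU A M q m i.1) :=
  m59mz_eh_isUnit_of_dvd_four hm2 (m59mz_eh_ord_ubar_dvd A hA M hqM hq2 hev i)

/-- `k_i · (ord_{Q_i} ū mod m) = 1`. -/
theorem m59mz_eh_k_mul_ordU (i : s44e_Sg A M q hq.out hqM) :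
    m59mz_eh_k A M q hq.out hqM m i * ((Place.ord i.1 (m59ye_ubar A M q) : ℤ) : ZMod m) = 1 := by
  rw [m59mz_eh_k_def, ← m59mz_eh_ordU_def]
  exact ZMod.inv_mul_of_unit _ (m59mz_eh_ordU_isUnit A hA M hqM hq2 hm2 hev i)

theorem m59mz_eh_k_isUnit (i : s44e_Sg A M q hq.out hqM) : IsUnit (m59mz_eh_k A M q hq.out hqM m i) :=
  IsUnit.of_mul_eq_one _ (m59mz_eh_k_mul_ordU A hA M hqM hq2 hm2 hev i)

/-- `(k_i)⁻¹ = ord_{Q_i} ū mod m`. -/
theorem m59mz_eh_k_inv (i : s44e_Sg A M q hq.out hqM) :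
    (m59mz_eh_k A M q hq.out hqM m i)⁻¹ = m59mz_eh_ordU A M q m i.1 :=
  ZMod.inv_eq_of_mul_eq_one m _ _ (m59mz_eh_k_mul_ordU A hA M hqM hq2 hm2 hev i)

/-- **mono in the slope form**: `T · ord_Q ū = 4`, `T · ord_Q f̄_z ≡ c_V (mod m)` ⟹
`k_Q · ν_Q(z) = c_V · 4⁻¹` in `ZMod m`. -/
theorem m59mz_eh_k_mul_of_slope (i : s44e_Sg A M q hq.out hqM) (z : JZero (M * q)) {T cV : ℤ}
    (hu : T * Place.ord i.1 (m59ye_ubar A M q) = 4)
    (hV : T * Place.ord i.1 (twfr_fbar A M q m z) ≡ cV [ZMOD (m : ℤ)]) :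
    m59mz_eh_k A M q hq.out hqM m i * twfr_nu A M q hq.out hqM m z i =
      (cV : ZMod m) * ((4 : ℤ) : ZMod m)⁻¹ := by
  have h4 : IsUnit (((4 : ℤ)) : ZMod m) := m59mz_eh_isUnit_of_dvd_four hm2 (dvd_refl _)
  have hu' : ((T : ℤ) : ZMod m) * m59mz_eh_ordU A M q m i.1 = ((4 : ℤ) : ZMod m) := by
    rw [m59mz_eh_ordU_def, ← hu]; push_cast; ring
  have hV' : ((T : ℤ) : ZMod m) * twfr_nu A M q hq.out hqM m z i = (cV : ZMod m) := by
    have := (ZMod.intCast_eq_intCast_iff _ _ m).2 hV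
    rw [← this]
    show _ * twfr_nuAll A M q m z i.1 = _
    rw [twfr_nuAll]; push_cast; ring
  have hk := m59mz_eh_k_mul_ordU A hA M hqM hq2 hm2 hev i
  rw [← m59mz_eh_ordU_def] at hk
  -- `k = T · 4⁻¹`
  have hkT : m59mz_eh_k A M q hq.out hqM m i = ((T : ℤ) : ZMod m) * ((4 : ℤ) : ZMod m)⁻¹ := by
    have h1 : m59mz_eh_k A M q hq.out hqM m i * ((4 : ℤ) : ZMod m) = ((T : ℤ) : ZMod m) := by
      rw [← hu', mul_comm ((T : ℤ) : ZMod m), ← mul_assoc, hk, one_mul]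
    rw [← h1, mul_assoc, ZMod.mul_inv_of_unit _ h4, mul_one]
  rw [hkT, mul_right_comm, hV']

end Weights

end Fermat.Agent.M59

end
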