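/-
M59 / block [MAZUR] (helper16; prefix `m59mz_eh_`), cell [GEO-3e], EVEN-LEVEL twin of the section
`Closed` of TW/Easy/HeckeRes/Main.lean (helper11's (Z4)): `2 ∣ M`, `q` odd, exponent `m ≠ 0` prime to
`2`.  The operator `B_ℓ = twfh_B` is main's (exponent- and unit-free); the weights are
`k = m59mz_eh_k` (Weights.lean).

* `m59mz_eh_heckeRes` : `ν (T_ℓ z) = B_ℓ (ν z)` on `J₀(M q)[m]` (from main's (★★) `twfh_fbar_hecke` and
  helper20's even (E2-ord) `m59res_ord`);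
* `m59mz_eh_BEis`     : `B_ℓ (1/k) = (ℓ + 1) • (1/k)` (from helper11's even (U-DIV) `m59yudm_udiv`,
  (U-T) `m59yhu_unit_hecke`, (U-RED) `m59yhu_ord_hecke`).
-/
import Mathlib
import Fermat.Agent.TW.Easy.HeckeRes.Main
import Fermat.Agent.M59.Mazur.Even.Weights
import Fermat.Agent.M59.DTwin.Res.Main
import Fermat.Agent.M59.TTwin.EisInst

set_option autoImplicit false
set_option linter.unusedSectionVars false
set_option linter.unusedVariables false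
set_option linter.style.haveILetI false
set_option synthInstance.maxHeartbeats 400000
set_option maxHeartbeats 1000000

noncomputable section

namespace Fermat.Agent.M59

open ModularCurve AlgebraicCurve IntermediateField IsLocalRing Module
open Fermat.Agent.JT3 Fermat.Agent.SS Fermat.Agent.S35 Fermat.Agent.S24 Fermat.Agent.S28
open Fermat.Agent.MZ Fermat.Agent.S44 Fermat.Agent.TW

local notation "Qb" => AlgebraicClosure ℚ

section Closed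

variable (A : ValuationSubring Qb) {q : ℕ} [hq : Fact q.Prime] (hA : A.LiesOverPrime q)
  (M : ℕ) [NeZero M] [NeZero q] [NeZero (M * q)] (hqM : ¬ q ∣ M) (hq2 : q ≠ 2)
  {m : ℕ} (hm0 : m ≠ 0) (hm2 : Nat.Coprime m 2) (hev : 2 ∣ M)

include hq2 hm0 hm2 hev in
/-- **(Z4) HECKE-RES, two primes**: `ν (T_ℓ z) = B_ℓ (ν z)` on `J₀(M q)[m]`, every prime `ℓ ∤ M q`. -/
theorem m59mz_eh_heckeRes (ℓ : Nat.Primes) (hℓN : ¬ (ℓ : ℕ) ∣ M * q) (z : JZero (M * q))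
    (hz : m • z = 0) :
    twfr_nu A M q hq.out hqM m (heckeOperatorBar (M * q) ℓ z) =
      twfh_B A hA M hqM m ℓ (twfr_nu A M q hq.out hqM m z) := by
  haveI : NeZero (ℓ : ℕ) := ⟨ℓ.2.ne_zero⟩
  haveI : CharP (ResidueField ↥A) q := jcr_charP A hA
  haveI : IsAlgClosed (ResidueField ↥A) := jcr_isAlgClosed A
  have hm := Nat.pos_of_ne_zero hm0
  have hqℓ : ¬ q ∣ (ℓ : ℕ) := s44hz_not_dvd M ℓ.2 hℓN
  haveI hPD' := s44hd_hasPrincipalDivisorsC A hA M (ℓ : ℕ) hqM hqℓ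
  have hmem := s44rd_hmem A hA M hqM
  have hfb := twfr_fbar_spec' A hA M hqM hm0 hz
  have hT := twfh_fbar_hecke A hA M hqM ℓ hℓN hfb
  obtain ⟨_, _, _, hfin, _, hN⟩ := s44hd_heckeInputsC A hA M (ℓ : ℕ) hqM hqℓ
  haveI hPD : HasPrincipalDivisors (ResidueField ↥A)
      ↥(modularFunctionFieldFullC (ResidueField ↥A) M) :=
    rt_hasPrincipalDivisors (jcr_isSepGen (k := ResidueField ↥A) M hqM
      (vx_rho q (ResidueField ↥A)))
  obtain ⟨D, hD, -⟩ := hPD.exists_divisor (twfr_fbar A M q m z) hfb.1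
  rw [twfh_B_eq A hA M hqM m ℓ hℓN]
  funext i
  have h1 := s44he_ord_B' (mzrh_beC (ResidueField ↥A) M (ℓ : ℕ))
    (mzrh_alC (ResidueField ↥A) M (ℓ : ℕ))
    (s44hz_beC_isIntegral A hA M hqM (ℓ : ℕ) hqℓ)
    (s44hd_alC_isIntegral A hA M (ℓ : ℕ) hqM hqℓ) m
    {Q | s44e_IsSS A M q hq.out hqM Q} hfin hN hfb.1 hD
    (fun w _ hw' => twfr_ord_off_of_Fbar A hA M hqM hm0 (m59res_ord A hA M hqM hq2 hm0 hev hm2) hfb _ hw')
    ⟨i.1, i.2⟩
  show twfr_nuAll A M q m (heckeOperatorBar (M * q) ℓ z) i.1 = _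
  rw [twfr_nuAll_eq A hq.out hA M hm hmem hT i.1]
  exact h1

include hq2 hm2 hev in
/-- **(Z4) B-EIS, two primes**: `B_ℓ (1/k) = (ℓ + 1) (1/k)` for `k = twfh_k`, every prime `ℓ ∤ M q`. -/
theorem m59mz_eh_BEis (ℓ : Nat.Primes) (hℓN : ¬ (ℓ : ℕ) ∣ M * q) :
    twfh_B A hA M hqM m ℓ (fun i => (m59mz_eh_k A M q hq.out hqM m i)⁻¹) =
      (((ℓ : ℕ) : ZMod m) + 1) • fun i => (m59mz_eh_k A M q hq.out hqM m i)⁻¹ := by
  haveI : NeZero (ℓ : ℕ) := ⟨ℓ.2.ne_zero⟩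
  haveI : CharP (ResidueField ↥A) q := jcr_charP A hA
  haveI : IsAlgClosed (ResidueField ↥A) := jcr_isAlgClosed A
  have hℓ : (ℓ : ℕ).Prime := ℓ.2
  have hqℓ : ¬ q ∣ (ℓ : ℕ) := s44hz_not_dvd M ℓ.2 hℓN
  have hℓM : ¬ (ℓ : ℕ) ∣ M := fun h => hℓN (h.mul_right q)
  have hqMℓ : ¬ q ∣ M * (ℓ : ℕ) := fun h => (hq.out.dvd_mul.mp h).elim hqM hqℓ
  haveI hPD' := s44hd_hasPrincipalDivisorsC A hA M (ℓ : ℕ) hqM hqℓ
  rw [twfh_B_eq A hA M hqM m ℓ hℓN]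
  obtain ⟨_, _, _, hfin, _, hN⟩ := s44hd_heckeInputsC A hA M (ℓ : ℕ) hqM hqℓ
  haveI hPD : HasPrincipalDivisors (ResidueField ↥A)
      ↥(modularFunctionFieldFullC (ResidueField ↥A) M) :=
    rt_hasPrincipalDivisors (jcr_isSepGen (k := ResidueField ↥A) M hqM
      (vx_rho q (ResidueField ↥A)))
  have hub : m59ye_ubar A M q ≠ 0 := m59yhu_e_ubar_ne_zero A hA M hqM hev
  obtain ⟨D, hD, -⟩ := hPD.exists_divisor (m59ye_ubar A M q) hub
  have hdeg := s44hd_finrank_alC A hA M (ℓ : ℕ) hℓ hℓM hqM hqMℓ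
  have h1 : (((ℓ : ℕ) : ZMod m)) + 1 = (((ℓ : ℕ) + 1 : ℕ) : ZMod m) := by push_cast; rfl
  rw [h1]
  refine twfh_B_eis_of_unit (mzrh_beC (ResidueField ↥A) M (ℓ : ℕ))
    (mzrh_alC (ResidueField ↥A) M (ℓ : ℕ)) _ _ m {Q | s44e_IsSS A M q hq.out hqM Q} hfin hN
    (fun i => m59mz_eh_k A M q hq.out hqM m i) ((ℓ : ℕ) + 1) hub hD ?_ ?_ ?_
  · intro Q
    rw [m59yhu_ubar_eq A hA M hqM hev]
    exact m59yhu_ord_hecke A hA rfl hqM hev (ℓ : ℕ) hqMℓ hℓ hℓN hdeg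
      (m59yhu_unit_hecke q (M * q) (m59yhu_dvd rfl hev) (ℓ : ℕ) hℓ hℓN) Q.1
  · intro Q
    exact m59mz_eh_k_mul_ordU A hA M hqM hq2 hm2 hev Q
  · intro w hw hw'
    have h2 : mzrh_alC (ResidueField ↥A) M (ℓ : ℕ) (jcr_j (k := ResidueField ↥A) M) ∈
        w.toValuationSubring := hw.1
    have h3 : mzrh_beC (ResidueField ↥A) M (ℓ : ℕ) (jcr_j (k := ResidueField ↥A) M) ∈
        w.toValuationSubring :=
      s44hu_noncusp (ResidueField ↥A) (vx_rho q (ResidueField ↥A)) M (ℓ : ℕ) hqℓ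
        w.toValuationSubring w.algebraMap_mem' h2
    rw [m59mz_eh_ord_ubar_off A hA M hqM hq2 hev _ h3 hw']
    exact dvd_zero _

end Closed

end Fermat.Agent.M59

end
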