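/-
M59 / block [MAZUR] (helper16; prefixes `m59mz_em_`, `m59mz_eh_`), cell [GEO-3e]: EVEN-LEVEL twins of
my (Z3) [MONO-tame] files TW/Easy/Mono/{PairNF,Main,MainGen}.lean: `2 ∣ M`, `q` odd, ANY exponent
`m ≠ 0` prime to `2` (in use: `m = 3 ^ n`).

* `m59mz_em_pair_nf`   : twin of `twfm_pair_nf` (node packages `m59yh2_NDAt` of helper11's TTwin);
* `m59mz_em_pairs_gen` : twin of `twfm_pairs_gen` (`m59yndss_ndss`; Hilbert 90 `twfm_unif` is main's);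
* `m59mz_em_mono_gen`  : twin of `twfm_mono_gen` (weights `m59mz_eh_k`);
* **`m59mz_em_compCells`** : `twf_CompCells A M hqM m ∅ m59mz_eh_k twfh_B` ((Z3) + (Z4), even level).
Substitution: `s44e_ubar ↦ m59ye_ubar`, `s44h2_NDAt ↦ m59yh2_NDAt`, `s44ndss_ndss ↦ m59yndss_ndss … hev`,
`12 ↦ 4`, `Coprime m 6 ↦ Coprime m 2`.
-/
import Mathlib
import Fermat.Agent.TW.Easy.Mono.MainGen
import Fermat.Agent.M59.Mazur.Even.HeckeRes
import Fermat.Agent.M59.TTwin.NodeDictSSDef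
import Fermat.Agent.M59.TTwin.MainND

set_option autoImplicit false
set_option linter.unusedSectionVars false
set_option linter.style.haveILetI false
set_option linter.unusedVariables false

noncomputable section

namespace Fermat.Agent.M59

open Polynomial ModularCurve AlgebraicCurve IntermediateField IsLocalRing
open Fermat.Agent.JT3 Fermat.Agent.SS Fermat.Agent.S35 Fermat.Agent.S24 Fermat.Agent.S44
  Fermat.Agent.TW

local notation "Qb" => AlgebraicClosure ℚ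

section Pair

set_option synthInstance.maxHeartbeats 400000

variable (A : ValuationSubring Qb) {q : ℕ} [hq : Fact q.Prime] (hA : A.LiesOverPrime q)
  (M : ℕ) [NeZero M] [NeZero q] [NeZero (M * q)] (hqM : ¬ q ∣ M) (hq2 : ¬ 2 ∣ q)
  (L' : IntermediateField ℚ Qb) [Normal ℚ L'] [NumberField ↥L']
  [IsDiscreteValuationRing ↥(A.comap (algebraMap ↥L' Qb))]
  [CharP (ResidueField ↥(A.comap (algebraMap ↥L' Qb))) q]
  {π : ↥(A.comap (algebraMap ↥L' Qb))} (hπ : Irreducible π)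

attribute [local instance] s44kq_lsAction

set_option maxHeartbeats 3200000 in
/-- **the pairwise slope congruence at one number field, exponent `m`.** -/
theorem m59mz_em_pair_nf {m : ℕ} (hm0 : m ≠ 0) (ζM : ↥L') (hζM : IsPrimitiveRoot ζM M)
    {V : JZero (M * q)}
    {fv1 : ↥(lg_F ↥L' (M * q))}
    (hrepV : s44f_Rep (M * q) m V (ssm_al_iotaF ↥L' (M * q) fv1))
    {c : ↥L'} {g Φ : ↥(lg_E ↥L' (M * q))} (hc0 : c ≠ 0) (hg : g ≠ 0)
    (hΦ : (Φ : LaurentSeries ↥L') = algebraMap ↥L' (LaurentSeries ↥L') c *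
      lg_phi ↥L' (fv1 : LaurentSeries ↥L') * (g : LaurentSeries ↥L') ^ m)
    (hσΦ : ∀ σ : ↥(s44mn_G (A.inertiaSubgroupIn ℚ) L'),
      coeffMap (((σ : ↥L' ≃ₐ[ℚ] ↥L') : ↥L' ≃ₐ[ℚ] ↥L') : ↥L' →+* ↥L')
        (Φ : LaurentSeries ↥L') = (Φ : LaurentSeries ↥L'))
    (hRΦ : ∀ v : Place ↥L' ↥(lg_E ↥L' (M * q)), v.ord Φ ≠ 0 → ss_RatPlace v)
    (Q Q' : Place (s44e_kA A) (s44e_FF A M))
    (hND : m59yh2_NDAt A hA M hqM hq2 Q L' hπ)
    (hND' : m59yh2_NDAt A hA M hqM hq2 Q' L' hπ) :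
    ∃ (fb : s44e_FF A M) (T T' : ℤ), twfr_Fbar A M q m V fb ∧
      T * Q.ord (m59ye_ubar A M q) = 4 ∧ T' * Q'.ord (m59ye_ubar A M q) = 4 ∧
      T * Q.ord fb ≡ T' * Q'.ord fb [ZMOD (m : ℤ)] := by
  classical
  obtain ⟨𝔫, h𝔫, u, v, T, ν, h1, hU, hσu, ⟨huS, hν⟩, hdict, h4⟩ := hND
  obtain ⟨𝔫', h𝔫', u', v', T', ν', h1', hU', hσu', ⟨huS', hν'⟩, hdict', h4'⟩ := hND'
  haveI := h𝔫
  haveI := h𝔫'
  have hqq := hq.out
  -- `q = π ^ e' · unit`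
  have hq0 : ((q : ℕ) : ↥(A.comap (algebraMap ↥L' Qb))) ≠ 0 := by
    intro h0
    have h2 := congrArg (fun z : ↥(A.comap (algebraMap ↥L' Qb)) => (z : ↥L')) h0
    simp only [ZeroMemClass.coe_zero] at h2
    have h3 : ((q : ℕ) : ↥L') = 0 := by
      rw [← h2]
      push_cast
      rfl
    exact hqq.ne_zero (by exact_mod_cast h3)
  obtain ⟨e', w, hw⟩ := IsDiscreteValuationRing.eq_unit_mul_pow_irreducible hq0 hπ
  have hqe : ((q : ℕ) : ↥(A.comap (algebraMap ↥L' Qb))) = π ^ e' * (w : _) := by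
    rw [hw, mul_comm]
  -- the inertia group
  have hin : ∀ γ : ↥(s44mn_G (A.inertiaSubgroupIn ℚ) L'),
      ss_Inert (A.comap (algebraMap ↥L' Qb))
        (MulSemiringAction.toRingEquiv ↥(s44mn_G (A.inertiaSubgroupIn ℚ) L') ↥L' γ) :=
    fun γ x hx => s44mi_inert A L' γ.2 x hx
  have hbase : ∀ c : ↥L', c ≠ 0 →
      (∀ γ : ↥(s44mn_G (A.inertiaSubgroupIn ℚ) L'), γ • c = c) →
      ∃ (n : ℤ) (ω : (↥(A.comap (algebraMap ↥L' Qb)))ˣ),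
        c = (π : ↥L') ^ ((e' : ℤ) * n) * (ω : ↥L') :=
    fun c hc hfix => s44mi_base q A hA L' hπ w.isUnit hqe c hc (fun γ hγ => hfix ⟨γ, hγ⟩)
  obtain ⟨hfv0, hordV⟩ := s44mci_ord_rep ↥L' (M * q) hrepV fv1 rfl
  have hΦ' : Φ = algebraMap ↥L' ↥(lg_E ↥L' (M * q)) c *
      lg_phiE (L := ↥L') (N := M * q) fv1 * g ^ m := Subtype.ext hΦ
  have hpair : ν (lg_phiE (L := ↥L') (N := M * q) fv1) ≡
      ν' (lg_phiE (L := ↥L') (N := M * q) fv1) [ZMOD (m : ℤ)] :=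
    twfm_gl_pair ↥L' (A.comap (algebraMap ↥L' Qb)) hπ M q hq2 hqM ζM hζM hin hqe hbase hm0
      hc0 hg hΦ' hσΦ hfv0 hordV hRΦ 𝔫 𝔫' h1 h1' hU hU' hσu hσu' ν ν' huS huS' hν hν'
  -- Gauss normalisation of `fv1`
  have hfv10 : fv1 ≠ 0 := by
    rintro rfl
    exact hfv0 (map_zero _)
  obtain ⟨n, hmemW, hunit⟩ := s44mm_exists_norm A M L' hπ fv1 hfv10
  have hrep := twfm_rep_norm A M L' hπ n hrepV
  haveI := s44mci_leg_isAlg ↥L' (A.comap (algebraMap ↥L' Qb)) (M * q)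
  haveI := s44mci_leg_noeth ↥L' (A.comap (algebraMap ↥L' Qb)) (M * q)
  haveI := s44mci_leg_ic ↥L' (A.comap (algebraMap ↥L' Qb)) (M * q)
  haveI := ssl_loc_isNoetherianRing (F0 := ↥(lg_E ↥L' (M * q))) 𝔫
  haveI := ssl_loc_isLocalRing (F0 := ↥(lg_E ↥L' (M * q))) 𝔫
  haveI := ssl_loc_isNoetherianRing (F0 := ↥(lg_E ↥L' (M * q))) 𝔫'
  haveI := ssl_loc_isLocalRing (F0 := ↥(lg_E ↥L' (M * q))) 𝔫'
  have e1 := s44mm_nu_phi_norm A M L' hπ hν rfl hfv10 n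
  have e1' := s44mm_nu_phi_norm A M L' hπ hν' rfl hfv10 n
  have hd := hdict ⟨_, hmemW⟩ hunit
  have hd' := hdict' ⟨_, hmemW⟩ hunit
  have hFb := twfm_fbar A hA M hqM L' hπ (s44nlr_red A hA M hqM L' hπ) (fun x hb => rfl)
    hunit hrep
  refine ⟨s44nlr_red A hA M hqM L' hπ ⟨_, hmemW⟩, T, T', hFb, h4, h4', ?_⟩
  rw [← hd, ← hd', e1, e1']
  exact hpair

end Pair

section Main

set_option synthInstance.maxHeartbeats 400000

variable (A : ValuationSubring Qb) {q : ℕ} [hq : Fact q.Prime] (hA : A.LiesOverPrime q)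
  (M : ℕ) [NeZero M] [NeZero q] [NeZero (M * q)] (hqM : ¬ q ∣ M) (hq2 : ¬ 2 ∣ q) (hev : 2 ∣ M)

attribute [local instance] s44kq_lsAction

omit hq in
/-- arithmetic: `T · a = 4`, `gcd(m, 2) = 1` ⟹ `(a mod m)⁻¹ · b = T · b / 4` in `ZMod m`. -/
theorem m59mz_em_inv_mul {m : ℕ} (hm2 : Nat.Coprime m 2) {a b T : ℤ} (hu : T * a = 4) :
    (((a : ℤ) : ZMod m))⁻¹ * ((b : ℤ) : ZMod m) =
      (((T * b : ℤ)) : ZMod m) * (((4 : ℤ) : ZMod m))⁻¹ := by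
  have h4u : IsUnit (((4 : ℤ) : ZMod m)) := by
    have h1 : Nat.Coprime 4 m := by
      have h2 : Nat.Coprime (2 * 2) m := Nat.Coprime.mul_left hm2.symm hm2.symm
      exact h2
    have := (ZMod.isUnit_iff_coprime 4 m).2 h1
    simpa using this
  have hau : IsUnit (((a : ℤ) : ZMod m)) := by
    have h1 : ((T : ℤ) : ZMod m) * ((a : ℤ) : ZMod m) = ((4 : ℤ) : ZMod m) := by
      rw [← hu]; push_cast; ring
    exact isUnit_of_mul_isUnit_right (h1 ▸ h4u)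
  have e1 : ((a : ℤ) : ZMod m) * (((a : ℤ) : ZMod m))⁻¹ = 1 := ZMod.mul_inv_of_unit _ hau
  have e2 : ((4 : ℤ) : ZMod m) * (((4 : ℤ) : ZMod m))⁻¹ = 1 := ZMod.mul_inv_of_unit _ h4u
  have e3 : ((T : ℤ) : ZMod m) * ((a : ℤ) : ZMod m) = ((4 : ℤ) : ZMod m) := by
    rw [← hu]; push_cast; ring
  calc (((a : ℤ) : ZMod m))⁻¹ * ((b : ℤ) : ZMod m)
      = (((a : ℤ) : ZMod m))⁻¹ * ((b : ℤ) : ZMod m) *
          (((4 : ℤ) : ZMod m) * (((4 : ℤ) : ZMod m))⁻¹) := by rw [e2, mul_one]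
    _ = (((a : ℤ) : ZMod m) * (((a : ℤ) : ZMod m))⁻¹) * (((T : ℤ) : ZMod m) * ((b : ℤ) : ZMod m)) *
          (((4 : ℤ) : ZMod m))⁻¹ := by rw [← e3]; ring
    _ = (((T * b : ℤ)) : ZMod m) * (((4 : ℤ) : ZMod m))⁻¹ := by
        rw [e1, one_mul]; push_cast; ring

include hA hq2 hev in
set_option maxHeartbeats 3200000 in
/-- **(Z3) [MONO-tame], raw pairwise slope form, ANY exponent `m ≠ 0`.** -/
theorem m59mz_em_pairs_gen {m : ℕ} (hm0 : m ≠ 0) {V : JZero (M * q)} (hV : m • V = 0)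
    (hfix : ∀ σ ∈ A.inertiaSubgroupIn ℚ, σ • V = V)
    (Q Q' : Place (s44e_kA A) (s44e_FF A M))
    (hQ : s44e_IsSS A M q hq.out hqM Q) (hQ' : s44e_IsSS A M q hq.out hqM Q') :
    ∃ (fb : s44e_FF A M) (T T' : ℤ), twfr_Fbar A M q m V fb ∧
      T * Q.ord (m59ye_ubar A M q) = 4 ∧ T' * Q'.ord (m59ye_ubar A M q) = 4 ∧
      T * Q.ord fb ≡ T' * Q'.ord fb [ZMOD (m : ℤ)] := by
  classical
  haveI : NeZero ((m : ℕ) : Qb) := ⟨by exact_mod_cast hm0⟩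
  obtain ⟨ζ, hζ⟩ := HasEnoughRootsOfUnity.exists_primitiveRoot Qb m
  obtain ⟨T₀, hT₀⟩ := m59yndss_ndss A hA M hqM hq2 hev Q hQ
  obtain ⟨T₀', hT₀'⟩ := m59yndss_ndss A hA M hqM hq2 hev Q' hQ'
  haveI : NeZero ((M : ℕ) : Qb) := ⟨by exact_mod_cast (NeZero.ne M)⟩
  obtain ⟨ζM, hζM⟩ := HasEnoughRootsOfUnity.exists_primitiveRoot Qb M
  obtain ⟨T₂, fV, cbar, gbar, Φbar, hRV, hall⟩ :=
    twfm_unif (M * q) hm0 hζ (A.inertiaSubgroupIn ℚ) V hfix hV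
  obtain ⟨L', hfd, hn, hTL', -⟩ := s44b_exists_nf (M * q) ∅ (T₂ ∪ T₀ ∪ T₀' ∪ {ζM})
  have hTL'' : ∀ x ∈ (T₂ ∪ T₀ ∪ T₀' ∪ {ζM} : Finset Qb), x ∈ L' :=
    fun x hx => hTL' (Finset.mem_coe.2 hx)
  have s1 : (↑T₂ : Set Qb) ⊆ L' := fun x hx => hTL'' x (by
    simp only [Finset.mem_union]; exact Or.inl (Or.inl (Or.inl (Finset.mem_coe.1 hx))))
  have s2 : (↑T₀ : Set Qb) ⊆ L' := fun x hx => hTL'' x (by
    simp only [Finset.mem_union]; exact Or.inl (Or.inl (Or.inr (Finset.mem_coe.1 hx))))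
  have s3 : (↑T₀' : Set Qb) ⊆ L' := fun x hx => hTL'' x (by
    simp only [Finset.mem_union]; exact Or.inl (Or.inr (Finset.mem_coe.1 hx)))
  have s4 : ζM ∈ L' := hTL'' ζM (Finset.mem_union_right _ (Finset.mem_singleton_self ζM))
  haveI := hfd
  haveI := hn
  haveI : NumberField ↥L' := { to_charZero := inferInstance, to_finiteDimensional := hfd }
  haveI hdvr : IsDiscreteValuationRing ↥(A.comap (algebraMap ↥L' Qb)) :=
    dsc_isDVR_comap_numberField A q hA hq.out.ne_zero ↥L'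
  haveI : CharP (IsLocalRing.ResidueField ↥(A.comap (algebraMap ↥L' Qb))) q :=
    ss_nfl_charP_residue (lg_natCast_mem_maximalIdeal A hA ↥L')
  obtain ⟨π, hπ⟩ := IsDiscreteValuationRing.exists_irreducible
    ↥(A.comap (algebraMap ↥L' Qb))
  have hζM' : IsPrimitiveRoot (⟨ζM, s4⟩ : ↥L') M :=
    (IsPrimitiveRoot.map_iff_of_injective (f := algebraMap ↥L' Qb)
      (FaithfulSMul.algebraMap_injective ↥L' Qb)).1 hζM
  obtain ⟨fv1, c, g, Φ, hfv1, hc0, hg0, hΦ, hσΦ, -, -, -, hRΦ⟩ := hall L' hfd hn s1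
  exact m59mz_em_pair_nf A hA M hqM hq2 L' hπ hm0 ⟨ζM, s4⟩ hζM'
    (by rw [hfv1]; exact hRV) hc0 hg0 hΦ hσΦ hRΦ Q Q' (hT₀ L' s2 hπ) (hT₀' L' s3 hπ)

include hA hq2 hev in
/-- **(Z3) [MONO-tame], ANY exponent `m` coprime to `6`**: for `V ∈ J₀(M q)[m]` fixed by the inertia
group of `A ∣ q`, the weighted residues `k_i · ν_i(V)` at the supersingular places are all equal
(`k = twfh_k`, `ν = twfr_nu`). -/
theorem m59mz_em_mono_gen {m : ℕ} (hm0 : m ≠ 0) (hm2 : Nat.Coprime m 2) {V : JZero (M * q)}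
    (hV : m • V = 0) (hfix : ∀ σ ∈ A.inertiaSubgroupIn ℚ, σ • V = V) :
    ∃ c : ZMod m, ∀ i : s44e_Sg A M q hq.out hqM,
      m59mz_eh_k A M q hq.out hqM m i * twfr_nu A M q hq.out hqM m V i = c := by
  refine s44mend_exists_c _ (fun i i' => ?_)
  obtain ⟨fb, T, T', hFb, hu, hu', hc⟩ :=
    m59mz_em_pairs_gen A hA M hqM hq2 hev hm0 hV hfix i.1 i'.1 i.2 i'.2
  have e := twfr_nuAll_eq A hq.out hA M (Nat.pos_of_ne_zero hm0) (s44rd_hmem A hA M hqM) hFb i.1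
  have e' := twfr_nuAll_eq A hq.out hA M (Nat.pos_of_ne_zero hm0) (s44rd_hmem A hA M hqM) hFb i'.1
  show (((Place.ord i.1 (m59ye_ubar A M q) : ℤ) : ZMod m))⁻¹ * twfr_nuAll A M q m V i.1 =
    (((Place.ord i'.1 (m59ye_ubar A M q) : ℤ) : ZMod m))⁻¹ * twfr_nuAll A M q m V i'.1
  rw [e, e', m59mz_em_inv_mul hm2 hu, m59mz_em_inv_mul hm2 hu', (ZMod.intCast_eq_intCast_iff _ _ m).2 hc]

include hA hq2 hev in
/-- **(Z3) + (Z4) for ANY exponent `m ≠ 0` coprime to `6`**: helper1's `twf_CompCells` with `S := ∅`,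
`k := twfh_k`, `B := twfh_B` (helper11). -/
theorem m59mz_em_compCells {m : ℕ} (hm0 : m ≠ 0) (hm2 : Nat.Coprime m 2) :
    twf_CompCells A M hqM m ∅ (m59mz_eh_k A M q hq.out hqM m) (twfh_B A hA M hqM m) := by
  have hq2' : q ≠ 2 := fun h => hq2 (by rw [h])
  refine ⟨?_, ?_, ?_, ?_⟩
  · exact fun i => m59mz_eh_k_isUnit A hA M hqM hq2' hm2 hev i
  · intro z hz hfix
    exact m59mz_em_mono_gen A hA M hqM hq2 hev hm0 hm2 hz hfix
  · intro ℓ hℓN _ z hz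
    exact m59mz_eh_heckeRes A hA M hqM hq2' hm0 hm2 hev ℓ hℓN z hz
  · intro ℓ hℓN _
    exact m59mz_eh_BEis A hA M hqM hq2' hm2 hev ℓ hℓN

end Main

end Fermat.Agent.M59
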