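/-
M59 / block [MAZUR] (helper16; prefix `m59mz_ev_`), cell [GEO-3e] + the cells of [RO-g] at `p = 3`:
ASSEMBLY OF THE GEOMETRIC PACKAGE AT EVEN LEVEL.

`q` odd, `q ∤ M`, `2 ∣ M`, exponent `m ≠ 0` prime to `2 q` (in use: `m = 3 ^ n`), `A` over `q`:

* (Z3)+(Z4) `m59mz_em_compCells`  (Even/Mono.lean: my twins + helper11's TTwin + main's Hilbert 90);
* (Z6) `m59rq_delta_hecke`, δ-linearity `m59rq_delta_zsmul`, δ-additivity `m59res_delta_add_of_nu`
  (helper20's DTwin/ResHecke, DTwin/Res);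
* (Z7) `m59to_toric` + `m59ad_toric_of_sep`, (Z8) `m59tj_toricW` (helper20's DTwin/Toric, ToricW).

**`m59mz_geoThreeEven : m59mz_GeoThreeEven_stmt`** (Closed.lean)      — leaf [GEO-3e] of [MAZUR], CLOSED;
**`m59mz_geoPowThreeEven : m59mz_GeoPowThreeEven_stmt`** (ReadOff.lean) — the only leaf of [RO-g], CLOSED.
-/
import Mathlib
import Fermat.Agent.M59.Mazur.Even.Mono
import Fermat.Agent.M59.Mazur.Closed
import Fermat.Agent.M59.Mazur.ReadOff
import Fermat.Agent.M59.DTwin.ResHecke.Main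
import Fermat.Agent.M59.DTwin.Toric.Main
import Fermat.Agent.M59.DTwin.ToricW.MainJ

set_option autoImplicit false
set_option linter.unusedSectionVars false
set_option linter.unusedVariables false
set_option linter.style.haveILetI false
set_option synthInstance.maxHeartbeats 400000
set_option maxHeartbeats 1000000

noncomputable section

namespace Fermat.Agent.M59

open ModularCurve AlgebraicCurve IsLocalRing Fermat.Agent.JT3 Fermat.Agent.S35 Fermat.Agent.SS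
  Fermat.Agent.S24 Fermat.Agent.S44 Fermat.Agent.S43 Fermat.Agent.TW

local notation "Qb" => AlgebraicClosure ℚ
local notation "GQ" => (AlgebraicClosure ℚ ≃ₐ[ℚ] AlgebraicClosure ℚ)

section Cells

variable (A : ValuationSubring Qb) {q : ℕ} [hq : Fact q.Prime] (hA : A.LiesOverPrime q)
  (M : ℕ) [NeZero M] [NeZero q] [NeZero (M * q)] (hqM : ¬ q ∣ M) (hq2 : q ≠ 2) (hev : 2 ∣ M)
  {m : ℕ} (hm0 : m ≠ 0) (hm2 : Nat.Coprime m 2)

include hA hq2 hev hm0 hm2

/-- (Z3)+(Z4) at even level. -/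
theorem m59mz_ev_comp :
    twf_CompCells A M hqM m ∅ (m59mz_eh_k A M q hq.out hqM m) (twfh_B A hA M hqM m) :=
  m59mz_em_compCells A hA M hqM
    (fun h => hq2 ((Nat.prime_dvd_prime_iff_eq Nat.prime_two hq.out).mp h).symm) hev hm0 hm2

/-- (Z6) at even level. -/
theorem m59mz_ev_resHecke : twf_ResHecke_stmt A M hqM m :=
  fun ℓ hℓN _ z hz hν => m59rq_delta_hecke A hA M hqM hq2 hm0 hev hm2 ℓ hℓN hz hν

/-- (Z7) at even level. -/
theorem m59mz_ev_toric (hqm : ¬ q ∣ m) : twf_Toric_stmt A M hqM m :=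
  m59ad_toric_of_sep A hA M hqM hq2 hm0 hev hm2
    (fun φ hφ => m59to_toric A hA φ hφ M hqM hq2 hev m hm0 hm2 hqm)

/-- (Z8) at even level. -/
theorem m59mz_ev_toricW (hqm : ¬ q ∣ m) : twf_ToricW_stmt A M hqM m (-1) :=
  m59tj_toricW A hA M hqM hq2 hm0 hev hm2 hqm

/-- additivity of `δ` on `J[m] ∩ ker ν` at even level. -/
theorem m59mz_ev_delta_add (z z' : JZero (M * q)) (hz : m • z = 0) (hz' : m • z' = 0)
    (hν : twfr_nu A M q hq.out hqM m z = 0) (hν' : twfr_nu A M q hq.out hqM m z' = 0) :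
    twfr_delta A M q m (z + z') = twfr_delta A M q m z + twfr_delta A M q m z' :=
  m59res_delta_add_of_nu A hA M hqM hq2 hm0 hev hm2 hz hz' hν hν'

/-- `ℤ`-linearity of `δ` on `J[m] ∩ ker ν` at even level. -/
theorem m59mz_ev_delta_zsmul (z : JZero (M * q)) (hz : m • z = 0)
    (hν : twfr_nu A M q hq.out hqM m z = 0) (n : ℤ) :
    twfr_delta A M q m (n • z) = n • twfr_delta A M q m z :=
  (m59rq_delta_zsmul A hA M hqM hq2 hm0 hev hm2 hz hν n).2

end Cells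

/-- **[GEO-3e]: CLOSED.** -/
theorem m59mz_geoThreeEven : m59mz_GeoThreeEven_stmt := by
  intro M q _ _ _ hq hqM hq2 h3q hev A hA
  have hm0 : (3 : ℕ) ≠ 0 := by norm_num
  have hm2 : Nat.Coprime 3 2 := by norm_num
  have hqm : ¬ q ∣ 3 := fun h =>
    h3q ((Nat.prime_dvd_prime_iff_eq hq.out Nat.prime_three).mp h).symm
  exact ⟨⟨∅, _, _, m59mz_ev_comp A hA M hqM hq2 hev hm0 hm2⟩,
    m59mz_ev_resHecke A hA M hqM hq2 hev hm0 hm2,
    ⟨-1, Or.inr rfl, m59mz_ev_toricW A hA M hqM hq2 hev hm0 hm2 hqm⟩,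
    fun z hz hν n => m59mz_ev_delta_zsmul A hA M hqM hq2 hev hm0 hm2 z hz hν n⟩

/-- **[GEO-pow] at `p = 3`, even level: CLOSED** (the only leaf of [RO-g]). -/
theorem m59mz_geoPowThreeEven : m59mz_GeoPowThreeEven_stmt := by
  intro M q _ _ _ hq hqM hq2 h3q hev n hn A hA
  have hm0 : (3 : ℕ) ^ n ≠ 0 := pow_ne_zero n (by norm_num)
  have hm2 : Nat.Coprime (3 ^ n) 2 := Nat.Coprime.pow_left n (by norm_num)
  have hqm : ¬ q ∣ 3 ^ n := fun h =>
    h3q ((Nat.prime_dvd_prime_iff_eq hq.out Nat.prime_three).mp (hq.out.dvd_of_dvd_pow h)).symm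
  exact ⟨⟨_, _, m59mz_ev_comp A hA M hqM hq2 hev hm0 hm2⟩,
    m59mz_ev_resHecke A hA M hqM hq2 hev hm0 hm2,
    m59mz_ev_toric A hA M hqM hq2 hev hm0 hm2 hqm,
    fun z z' hz hz' hν hν' => m59mz_ev_delta_add A hA M hqM hq2 hev hm0 hm2 z z' hz hz' hν hν'⟩

end Fermat.Agent.M59
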